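import Mathlib

/-!
# Vector valued modular forms

Forms for a finite permutation representation of `SL(2, ℤ)`, their division by level one forms
with simple zeros, and the vanishing or constancy of forms of weight at most zero.
-/

set_option autoImplicit false

noncomputable section

open UpperHalfPlane Filter Topology
open scoped MatrixGroups ModularForm Manifold

namespace Fermat.Agent.Poincare

/-- Vanishing (`cusp = true`) or boundedness (`cusp = false`) at `i∞`. -/
def Growth (cusp : Bool) (f : ℍ → ℂ) : Prop :=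
  cond cusp (IsZeroAtImInfty f) (IsBoundedAtImInfty f)

namespace Growth

lemma zero : ∀ cusp, Growth cusp (0 : ℍ → ℂ)
  | true => zero_zeroAtFilter _
  | false => (zero_zeroAtFilter _).boundedAtFilter

lemma add : ∀ {cusp : Bool} {f g : ℍ → ℂ}, Growth cusp f → Growth cusp g → Growth cusp (f + g)
  | true, _, _, hf, hg => Filter.ZeroAtFilter.add hf hg
  | false, _, _, hf, hg => Filter.BoundedAtFilter.add hf hg

lemma smul : ∀ {cusp : Bool} {f : ℍ → ℂ} (c : ℂ), Growth cusp f → Growth cusp (c • f)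
  | true, _, c, hf => Filter.ZeroAtFilter.smul c hf
  | false, _, c, hf => Filter.BoundedAtFilter.smul c hf

lemma bounded : ∀ {cusp : Bool} {f : ℍ → ℂ}, Growth cusp f → IsBoundedAtImInfty f
  | true, _, hf => Filter.ZeroAtFilter.boundedAtFilter hf
  | false, _, hf => hf

lemma of_isZeroAtImInfty : ∀ {cusp : Bool} {f : ℍ → ℂ}, IsZeroAtImInfty f → Growth cusp f
  | true, _, hf => hf
  | false, _, hf => Filter.ZeroAtFilter.boundedAtFilter hf

lemma mul_bounded : ∀ {cusp : Bool} {f g : ℍ → ℂ},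
    IsBoundedAtImInfty f → Growth cusp g → Growth cusp (f * g)
  | true, f, g, hf, hg => by
    show ZeroAtFilter atImInfty _
    rw [ZeroAtFilter, tendsto_zero_iff_norm_tendsto_zero]
    obtain ⟨M, A, hM⟩ := isBoundedAtImInfty_iff.mp hf
    have hev : ∀ᶠ τ in atImInfty, ‖f τ‖ ≤ max M 0 := by
      rw [Filter.Eventually, atImInfty_mem]
      exact ⟨A, fun z hz ↦ (hM z hz).trans (le_max_left _ _)⟩
    refine squeeze_zero' (Eventually.of_forall fun τ ↦ norm_nonneg _) ?_
      (by simpa using (tendsto_zero_iff_norm_tendsto_zero.mp hg).const_mul (max M 0))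
    filter_upwards [hev] with τ hτ
    rw [Pi.mul_apply, norm_mul]
    exact mul_le_mul_of_nonneg_right hτ (norm_nonneg _)
  | false, _, _, hf, hg => Filter.BoundedAtFilter.mul hf hg

lemma congr {cusp : Bool} {f g : ℍ → ℂ} (hf : Growth cusp f) (h : f =ᶠ[atImInfty] g) :
    Growth cusp g := by
  cases cusp
  · exact Asymptotics.IsBigO.congr' (hf : IsBoundedAtImInfty f) h EventuallyEq.rfl
  · exact Tendsto.congr' h hf

end Growth

variable {X : Type*} [MulAction SL(2, ℤ) X]

/-- A vector valued modular form of weight `k` for the permutation representation on `X`. -/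
structure IsVForm (cusp : Bool) (k : ℤ) (F : X → ℍ → ℂ) : Prop where
  holo : ∀ x, MDiff (F x)
  slash : ∀ (g : SL(2, ℤ)) (x : X), F x ∣[k] g = F (g⁻¹ • x)
  growth : ∀ x, Growth cusp (F x)

/-- A modular form of level one and weight `k`, as a plain function. -/
structure IsLevelOne (k : ℤ) (f : ℍ → ℂ) : Prop where
  holo : MDiff f
  slash : ∀ g : SL(2, ℤ), f ∣[k] g = f
  bdd : IsBoundedAtImInfty f

/-- The space of vector valued modular forms. -/
def vSpace (X : Type*) [MulAction SL(2, ℤ) X] (cusp : Bool) (k : ℤ) :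
    Submodule ℂ (X → ℍ → ℂ) where
  carrier := {F | IsVForm cusp k F}
  zero_mem' := ⟨fun _ ↦ mdifferentiable_const, fun g x ↦ SlashAction.zero_slash k g,
    fun _ ↦ Growth.zero cusp⟩
  add_mem' {F G} hF hG := ⟨fun x ↦ (hF.holo x).add (hG.holo x),
    fun g x ↦ by simp [SlashAction.add_slash, hF.slash, hG.slash],
    fun x ↦ (hF.growth x).add (hG.growth x)⟩
  smul_mem' c {F} hF := ⟨fun x ↦ (hF.holo x).const_smul c,
    fun g x ↦ by simp [hF.slash],
    fun x ↦ (hF.growth x).smul c⟩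

lemma mem_vSpace {cusp : Bool} {k : ℤ} {F : X → ℍ → ℂ} :
    F ∈ vSpace X cusp k ↔ IsVForm cusp k F := Iff.rfl

lemma IsVForm.apply_smul {cusp : Bool} {k : ℤ} {F : X → ℍ → ℂ} (hF : IsVForm cusp k F)
    (g : SL(2, ℤ)) (x : X) (τ : ℍ) :
    F x (g • τ) = F (g⁻¹ • x) τ * denom g τ ^ k := by
  have h := congrFun (hF.slash g x) τ
  rw [ModularForm.SL_slash_apply] at h
  rw [← h, mul_assoc, ← zpow_add₀ (denom_ne_zero _ τ), neg_add_cancel, zpow_zero, mul_one]

lemma IsLevelOne.apply_smul {k : ℤ} {f : ℍ → ℂ} (hf : IsLevelOne k f) (g : SL(2, ℤ)) (τ : ℍ) :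
    f (g • τ) = f τ * denom g τ ^ k := by
  have h := congrFun (hf.slash g) τ
  rw [ModularForm.SL_slash_apply] at h
  rw [← h, mul_assoc, ← zpow_add₀ (denom_ne_zero _ τ), neg_add_cancel, zpow_zero, mul_one]

/-- A level-one form as a bundled modular form. -/
def IsLevelOne.toModularForm {k : ℤ} {f : ℍ → ℂ} (hf : IsLevelOne k f) : ModularForm 𝒮ℒ k where
  toFun := f
  slash_action_eq' := fun _ ⟨γ, hγ⟩ ↦ hγ ▸ hf.slash γ
  holo' := hf.holo
  bdd_at_cusps' {c} hc := by
    rw [Subgroup.IsArithmetic.isCusp_iff_isCusp_SL2Z] at hc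
    rw [OnePoint.isBoundedAt_iff_forall_SL2Z hc]
    intro γ _
    rw [hf.slash γ]
    exact hf.bdd

lemma IsLevelOne.of_modularForm {k : ℤ} (f : ModularForm 𝒮ℒ k) : IsLevelOne k f :=
  ⟨f.holo', fun γ ↦ SlashInvariantForm.slash_action_eqn f _ ⟨γ, rfl⟩,
    ModularFormClass.bdd_at_infty f⟩

lemma IsLevelOne.one : IsLevelOne 0 (1 : ℍ → ℂ) :=
  ⟨mdifferentiable_const, fun g ↦ ModularForm.is_invariant_one g,
    Filter.const_boundedAtFilter atImInfty (1 : ℂ)⟩

lemma IsLevelOne.mul {a b : ℤ} {p q : ℍ → ℂ} (hp : IsLevelOne a p) (hq : IsLevelOne b q) :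
    IsLevelOne (a + b) (p * q) :=
  ⟨hp.holo.mul hq.holo, fun g ↦ by rw [ModularForm.mul_slash_SL2, hp.slash, hq.slash],
    hp.bdd.mul hq.bdd⟩

lemma IsLevelOne.pow {a : ℤ} {p : ℍ → ℂ} (hp : IsLevelOne a p) (n : ℕ) :
    IsLevelOne (n * a) (p ^ n) := by
  induction n with
  | zero => simpa using IsLevelOne.one
  | succ n ih => rw [pow_succ]; push_cast; rw [add_mul, one_mul]; exact ih.mul hp

lemma IsLevelOne.smul {a : ℤ} {p : ℍ → ℂ} (hp : IsLevelOne a p) (c : ℂ) :
    IsLevelOne a (c • p) :=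
  ⟨hp.holo.const_smul c, fun g ↦ by simp [hp.slash], Filter.BoundedAtFilter.smul c hp.bdd⟩

lemma IsLevelOne.eq_zero_of_neg {k : ℤ} {f : ℍ → ℂ} (hf : IsLevelOne k f) (hk : k < 0) : f = 0 :=
  ModularFormClass.levelOne_neg_weight_eq_zero hk hf.toModularForm

lemma IsVForm.levelOne_mul {cusp : Bool} {a b : ℤ} {p : ℍ → ℂ} {F : X → ℍ → ℂ}
    (hp : IsLevelOne a p) (hF : IsVForm cusp b F) :
    IsVForm cusp (a + b) (fun x ↦ p * F x) :=
  ⟨fun x ↦ hp.holo.mul (hF.holo x),
    fun g x ↦ by rw [ModularForm.mul_slash_SL2, hp.slash, hF.slash],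
    fun x ↦ Growth.mul_bounded hp.bdd (hF.growth x)⟩

lemma IsVForm.mul {cusp : Bool} {a b : ℤ} {F G : X → ℍ → ℂ} (hF : IsVForm false a F)
    (hG : IsVForm cusp b G) : IsVForm cusp (a + b) (fun x ↦ F x * G x) :=
  ⟨fun x ↦ (hF.holo x).mul (hG.holo x),
    fun g x ↦ by rw [ModularForm.mul_slash_SL2, hF.slash, hG.slash],
    fun x ↦ Growth.mul_bounded (hF.growth x) (hG.growth x)⟩

/-- The sum of the components is a level one form. -/
lemma IsVForm.sum_levelOne [Fintype X] {cusp : Bool} {k : ℤ} {F : X → ℍ → ℂ}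
    (hF : IsVForm cusp k F) : IsLevelOne k (∑ x, F x) := by
  refine ⟨?_, fun g ↦ ?_, (?_ : Growth false _)⟩
  · exact (vSum_holo Finset.univ F hF.holo)
  · rw [SlashAction.sum_slash]
    simp only [hF.slash]
    exact Fintype.sum_equiv (MulAction.toPerm g⁻¹) _ _ fun x ↦ rfl
  · exact vSum_growth Finset.univ F fun x ↦ (hF.growth x).bounded
where
  vSum_holo (s : Finset X) (F : X → ℍ → ℂ) (h : ∀ x, MDiff (F x)) : MDiff (∑ x ∈ s, F x) := by
    classical
    induction s using Finset.induction_on with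
    | empty => simp only [Finset.sum_empty]; exact mdifferentiable_const
    | insert a s ha ih => rw [Finset.sum_insert ha]; exact (h a).add ih
  vSum_growth {cusp : Bool} (s : Finset X) (F : X → ℍ → ℂ) (h : ∀ x, Growth cusp (F x)) :
      Growth cusp (∑ x ∈ s, F x) :=
    Finset.sum_induction _ _ (fun _ _ ↦ Growth.add) (Growth.zero _) fun x _ ↦ h x

/-! ### Division by a level one form with simple zeros -/

/-- All zeros of `p` are simple. -/
def SimpleZeros (p : ℍ → ℂ) : Prop := ∀ τ : ℍ, p τ = 0 → deriv (p ∘ ofComplex) τ ≠ 0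

/-- The quotient `G / p`, extended across simple zeros of `p`. -/
def divFun (p G : ℍ → ℂ) (τ : ℍ) : ℂ :=
  if p τ = 0 then deriv (G ∘ ofComplex) τ / deriv (p ∘ ofComplex) τ else G τ / p τ

lemma divFun_mul {p G : ℍ → ℂ} (hvan : ∀ τ, p τ = 0 → G τ = 0) (τ : ℍ) :
    p τ * divFun p G τ = G τ := by
  unfold divFun
  split_ifs with h
  · rw [h, zero_mul, hvan τ h]
  · rw [mul_div_cancel₀ _ h]

lemma mdifferentiable_divFun {p G : ℍ → ℂ} (hp : MDiff p) (hG : MDiff G) (hs : SimpleZeros p)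
    (hvan : ∀ τ, p τ = 0 → G τ = 0) : MDiff (divFun p G) := by
  intro τ
  rw [UpperHalfPlane.mdifferentiableAt_iff]
  have hU : {z : ℂ | 0 < z.im} ∈ 𝓝 (τ : ℂ) := isOpen_upperHalfPlaneSet.mem_nhds τ.im_pos
  have hpd := UpperHalfPlane.mdifferentiable_iff.mp hp
  have hGd := UpperHalfPlane.mdifferentiable_iff.mp hG
  by_cases h : p τ = 0
  · have h1 := ((Complex.differentiableOn_dslope hU).mpr hpd).differentiableAt hU
    have h2 := ((Complex.differentiableOn_dslope hU).mpr hGd).differentiableAt hU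
    have hne : dslope (p ∘ ofComplex) (τ : ℂ) (τ : ℂ) ≠ 0 := by
      rw [dslope_same]; exact hs τ h
    refine (h2.div h1 hne).congr_of_eventuallyEq ?_
    filter_upwards [hU, h1.continuousAt.eventually_ne hne] with z hz hnz
    have hz' : ofComplex z = ⟨z, hz⟩ := ofComplex_apply_of_im_pos hz
    simp only [Function.comp_apply, hz', Pi.div_apply]
    rcases eq_or_ne z (τ : ℂ) with rfl | hne'
    · simp [divFun, h, dslope_same]
    · have hp0 : p τ = 0 := h
      rw [dslope_of_ne _ hne'] at hnz ⊢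
      rw [dslope_of_ne _ hne']
      simp only [slope_def_field, Function.comp_apply, ofComplex_apply, hp0, hvan τ hp0,
        sub_zero, hz'] at hnz ⊢
      have hpz : p ⟨z, hz⟩ ≠ 0 := fun e ↦ hnz (by simp [e])
      have hzt : z - τ ≠ 0 := sub_ne_zero.mpr hne'
      rw [divFun, if_neg hpz]
      field_simp
  · refine ((UpperHalfPlane.mdifferentiableAt_iff.mp (hG τ)).div
      (UpperHalfPlane.mdifferentiableAt_iff.mp (hp τ)) (by simpa [ofComplex_apply] using h))
      |>.congr_of_eventuallyEq ?_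
    have hc : ContinuousAt (p ∘ ofComplex) (τ : ℂ) := (hpd.differentiableAt hU).continuousAt
    filter_upwards [hc.eventually_ne (by simpa [ofComplex_apply] using h)] with z hz
    simp only [Function.comp_apply, divFun, Pi.div_apply] at hz ⊢
    rw [if_neg hz]

lemma cancel_of_simpleZeros {p a b : ℍ → ℂ} (hp : MDiff p) (hs : SimpleZeros p)
    (ha : MDiff a) (hb : MDiff b) (h : ∀ τ, p τ * a τ = p τ * b τ) : a = b := by
  funext τ
  by_cases hτ : p τ = 0
  · have hU : {z : ℂ | 0 < z.im} ∈ 𝓝 (τ : ℂ) := isOpen_upperHalfPlaneSet.mem_nhds τ.im_pos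
    have hcont : ∀ {f : ℍ → ℂ}, MDiff f → ContinuousAt (f ∘ ofComplex) (τ : ℂ) := fun hf ↦
      ((UpperHalfPlane.mdifferentiable_iff.mp hf).differentiableAt hU).continuousAt
    have hev : (a ∘ ofComplex) =ᶠ[𝓝[≠] (τ : ℂ)] (b ∘ ofComplex) := by
      have hne : ∀ᶠ z in 𝓝[≠] (τ : ℂ), (p ∘ ofComplex) z ≠ 0 := by
        have hd := ((UpperHalfPlane.mdifferentiable_iff.mp hp).differentiableAt hU).hasDerivAt
        exact hd.eventually_ne (hs τ hτ)
      filter_upwards [hne] with z hz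
      exact mul_left_cancel₀ hz (h _)
    have := ((hcont ha).eventuallyEq_nhds_iff_eventuallyEq_nhdsNE (hcont hb)).mp hev
    simpa [ofComplex_apply] using this.eq_of_nhds
  · exact mul_left_cancel₀ hτ (h τ)

/-- Division by a level one form with simple zeros and non-zero constant term. -/
theorem IsVForm.exists_eq_levelOne_mul {cusp : Bool} {k e : ℤ} {p : ℍ → ℂ} {G : X → ℍ → ℂ}
    (hp : IsLevelOne e p) (hs : SimpleZeros p) {c : ℂ} (hc : c ≠ 0)
    (hlim : Tendsto p atImInfty (𝓝 c)) (hG : IsVForm cusp k G)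
    (hvan : ∀ x τ, p τ = 0 → G x τ = 0) :
    ∃ H : X → ℍ → ℂ, IsVForm cusp (k - e) H ∧ ∀ x, G x = p * H x := by
  have hmul : ∀ x, G x = p * divFun p (G x) := fun x ↦
    funext fun τ ↦ (divFun_mul (hvan x) τ).symm
  have hd : ∀ x, MDiff (divFun p (G x)) := fun x ↦
    mdifferentiable_divFun hp.holo (hG.holo x) hs (hvan x)
  refine ⟨fun x ↦ divFun p (G x), ⟨hd, fun g x ↦ ?_, fun x ↦ ?_⟩, hmul⟩
  · refine cancel_of_simpleZeros hp.holo hs ((hd x).slash _ _) (hd _) fun τ ↦ ?_
    have h1 := ModularForm.mul_slash_SL2 e (k - e) g p (divFun p (G x))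
    rw [← hmul x, hp.slash, add_sub_cancel, hG.slash, hmul (g⁻¹ • x)] at h1
    exact (congrFun h1 τ).symm
  · have hne : ∀ᶠ τ in atImInfty, p τ ≠ 0 := hlim.eventually_ne hc
    have hb : IsBoundedAtImInfty fun τ ↦ (p τ)⁻¹ := (hlim.inv₀ hc).isBigO_one ℝ |>.trans
      (Asymptotics.isBigO_const_const _ one_ne_zero _)
    refine (Growth.mul_bounded hb (hG.growth x)).congr ?_
    filter_upwards [hne] with τ hτ
    simp [divFun, hτ, div_eq_inv_mul]

/-! ### Weight `≤ 0` and parity -/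

lemma eq_zero_of_powerSums {ι : Type*} [Fintype ι] {z : ι → ℂ}
    (h : ∀ m : ℕ, 1 ≤ m → ∑ i, z i ^ m = 0) (i₀ : ι) : z i₀ = 0 := by
  classical
  by_contra hne
  set s := (Finset.univ.image z).filter (fun a ↦ a ≠ 0 ∧ a ≠ z i₀)
  set P : Polynomial ℂ := Polynomial.X * ∏ a ∈ s, (Polynomial.X - Polynomial.C a) with hP
  have hsum : ∑ i, P.eval (z i) = 0 := by
    simp_rw [Polynomial.eval_eq_sum_range]
    rw [Finset.sum_comm]
    refine Finset.sum_eq_zero fun m _ ↦ ?_
    rw [← Finset.mul_sum]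
    rcases Nat.eq_zero_or_pos m with rfl | hm
    · simp [hP]
    · rw [h m hm, mul_zero]
  have hval : ∀ i, P.eval (z i) = if z i = z i₀ then P.eval (z i₀) else 0 := by
    intro i
    split_ifs with hi
    · rw [hi]
    · rcases eq_or_ne (z i) 0 with h0 | h0
      · simp [hP, h0]
      · rw [hP, Polynomial.eval_mul, Polynomial.eval_prod,
          Finset.prod_eq_zero (i := z i) (by simp [s, h0, hi]) (by simp), mul_zero]
  rw [Finset.sum_congr rfl fun i _ ↦ hval i, ← Finset.sum_filter, Finset.sum_const,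
    nsmul_eq_mul, mul_eq_zero, Nat.cast_eq_zero, Finset.card_eq_zero] at hsum
  rcases hsum with h1 | h1
  · simpa using Finset.eq_empty_iff_forall_notMem.mp h1 i₀
  · rw [hP, Polynomial.eval_mul, Polynomial.eval_prod, Polynomial.eval_X, mul_eq_zero] at h1
    refine h1.elim hne fun h2 ↦ ?_
    rw [Finset.prod_eq_zero_iff] at h2
    obtain ⟨a, ha, ha'⟩ := h2
    simp only [s, Finset.mem_filter] at ha
    exact ha.2.2 (sub_eq_zero.mp (by simpa using ha')).symm

lemma IsVForm.pow {k : ℤ} {F : X → ℍ → ℂ} (hF : IsVForm false k F) :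
    ∀ m : ℕ, IsVForm false (m * k) (fun x ↦ F x ^ m)
  | 0 => ⟨fun _ ↦ by simp only [pow_zero]; exact mdifferentiable_const,
      fun g x ↦ by simpa using ModularForm.is_invariant_one g,
      fun _ ↦ by simp only [pow_zero]; exact Filter.const_boundedAtFilter atImInfty (1 : ℂ)⟩
  | m + 1 => by
    simp only [pow_succ]
    push_cast
    rw [add_mul, one_mul]
    exact (hF.pow m).mul hF

lemma IsVForm.bounded {cusp : Bool} {k : ℤ} {F : X → ℍ → ℂ} (hF : IsVForm cusp k F) :
    IsVForm false k F :=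
  ⟨hF.holo, hF.slash, fun x ↦ (hF.growth x).bounded⟩

theorem IsVForm.eq_zero_of_neg [Fintype X] {cusp : Bool} {k : ℤ} {F : X → ℍ → ℂ}
    (hF : IsVForm cusp k F) (hk : k < 0) : F = 0 := by
  funext x τ
  refine eq_zero_of_powerSums (z := fun y ↦ F y τ) (fun m hm ↦ ?_) x
  have := ((hF.bounded.pow m).sum_levelOne).eq_zero_of_neg (mul_neg_of_pos_of_neg (by omega) hk)
  simpa [Finset.sum_apply] using congrFun this τ

theorem IsVForm.eq_const [Fintype X] {cusp : Bool} {F : X → ℍ → ℂ}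
    (hF : IsVForm cusp 0 F) (x : X) (τ : ℍ) : F x τ = F x UpperHalfPlane.I := by
  classical
  set P : Polynomial ℂ := ∏ y : X, (Polynomial.X - Polynomial.C (F y UpperHalfPlane.I)) with hP
  have hPF : IsVForm false 0 (fun x τ ↦ P.eval (F x τ)) := by
    have : (fun x τ ↦ P.eval (F x τ))
        = ∑ m ∈ Finset.range (P.natDegree + 1), P.coeff m • fun x ↦ F x ^ m := by
      funext x τ
      simp [Polynomial.eval_eq_sum_range, Finset.sum_apply]
    rw [this]
    exact (vSpace X false 0).sum_mem fun m _ ↦ (vSpace X false 0).smul_mem _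
      (mem_vSpace.mpr (by simpa using hF.bounded.pow m))
  have hzero : ∀ y τ, P.eval (F y τ) = 0 := fun y τ ↦ by
    refine eq_zero_of_powerSums (z := fun y ↦ P.eval (F y τ)) (fun m hm ↦ ?_) y
    have h0 : IsLevelOne 0 (∑ y : X, (fun τ ↦ P.eval (F y τ)) ^ m) := by
      simpa using (hPF.pow m).sum_levelOne
    obtain ⟨c, hc⟩ := ModularFormClass.levelOne_weight_zero_const h0.toModularForm
    have e : ∀ τ, (∑ y : X, (fun τ ↦ P.eval (F y τ)) ^ m) τ = c := fun τ ↦ congrFun hc τ
    have eI := e UpperHalfPlane.I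
    simp only [Finset.sum_apply, Pi.pow_apply] at e eI
    have hroot : ∀ y, P.eval (F y UpperHalfPlane.I) = 0 := fun y ↦ by
      rw [hP, Polynomial.eval_prod]
      exact Finset.prod_eq_zero (Finset.mem_univ y) (by simp)
    simp only [hroot, zero_pow (by omega : m ≠ 0), Finset.sum_const_zero] at eI
    rw [e τ, ← eI]
  have hcont : Continuous (F x) := (hF.holo x).continuous
  have hfin : (Set.range (F x)).Finite := by
    refine (Finset.univ.image fun y ↦ F y UpperHalfPlane.I).finite_toSet.subset ?_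
    rintro _ ⟨τ, rfl⟩
    have := hzero x τ
    rw [hP, Polynomial.eval_prod, Finset.prod_eq_zero_iff] at this
    obtain ⟨y, -, hy⟩ := this
    simp [sub_eq_zero] at hy
    simp [hy]
  have : DiscreteTopology (Set.range (F x)) := hfin.isDiscrete.1
  exact congrArg Subtype.val
    (PreconnectedSpace.constant inferInstance (hcont.subtype_mk fun τ ↦ ⟨τ, rfl⟩ :
      Continuous (Set.rangeFactorization (F x))) (x := τ) (y := UpperHalfPlane.I))

theorem IsVForm.eq_zero_of_odd {cusp : Bool} {k : ℤ} {F : X → ℍ → ℂ} (hF : IsVForm cusp k F)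
    (hX : ∀ x : X, (-1 : SL(2, ℤ)) • x = x) (hk : Odd k) : F = 0 := by
  funext x τ
  have h := hF.apply_smul (-1) x τ
  have hd : denom ((-1 : SL(2, ℤ)) : GL (Fin 2) ℝ) (τ : ℂ) = -1 := by
    rw [ModularGroup.denom_apply]; simp
  rw [ModularGroup.SL_neg_smul, one_smul, inv_neg, inv_one, hX, hd, hk.neg_one_zpow,
    mul_neg_one] at h
  exact CharZero.eq_neg_self_iff.mp h

end Fermat.Agent.Poincare
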