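import Fermat.Agent.Poincare.WeightSum

/-!
# Weights of bases and the dimension in weight two

Duality between the weights of the two bases, and the genus formula for the dimension of weight
two vector valued cusp forms (`finrank_two_eq`).
-/

set_option autoImplicit false

noncomputable section

open UpperHalfPlane hiding I
open Filter Topology Complex ModularForm Function
open scoped MatrixGroups Manifold Real

namespace Fermat.Agent.Poincare

variable {X : Type} [MulAction SL(2, ℤ) X] [Fintype X]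

/-- Translation by `g` on functions on `X`. -/
def translOp (g : SL(2, ℤ)) : (X → ℂ) →ₗ[ℂ] (X → ℂ) where
  toFun v x := v (g⁻¹ • x)
  map_add' _ _ := rfl
  map_smul' _ _ := rfl

/-- An eigenbasis of a translation determines its number of fixed points. -/
lemma sum_eigenvalues (g : SL(2, ℤ)) {v : X → X → ℂ} {l : X → ℂ} (hv : LinearIndependent ℂ v)
    (he : ∀ i, translOp g (v i) = l i • v i) :
    ∑ i, l i = (Nat.card {x : X // g • x = x} : ℂ) := by
  classical
  rcases isEmpty_or_nonempty X with hXe | hXn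
  · simp
  set b := basisOfLinearIndependentOfCardEqFinrank hv (by simp) with hb
  have hbv : ∀ i, b i = v i := fun i ↦
    congrFun (coe_basisOfLinearIndependentOfCardEqFinrank hv (by simp)) i
  have h1 : LinearMap.trace ℂ (X → ℂ) (translOp g) = ∑ i, l i := by
    rw [LinearMap.trace_eq_matrix_trace ℂ b, Matrix.trace]
    refine Finset.sum_congr rfl fun i _ ↦ ?_
    rw [Matrix.diag, LinearMap.toMatrix_apply, hbv, he, ← hbv, map_smul, Module.Basis.repr_self]
    simp
  have h2 : LinearMap.trace ℂ (X → ℂ) (translOp g) = (Nat.card {x : X // g • x = x} : ℂ) := by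
    rw [LinearMap.trace_eq_matrix_trace ℂ (Pi.basisFun ℂ X), Matrix.trace, Nat.card_eq_fintype_card,
      Fintype.card_subtype, Finset.natCast_card_filter]
    refine Finset.sum_congr rfl fun x _ ↦ ?_
    simp only [Matrix.diag, LinearMap.toMatrix_apply, Pi.basisFun_repr, Pi.basisFun_apply]
    show (Pi.single x (1 : ℂ) : X → ℂ) (g⁻¹ • x) = _
    rw [Pi.single_apply]
    exact if_congr inv_smul_eq_iff.eq.to_iff rfl rfl |>.trans (if_congr eq_comm rfl rfl)
  rw [← h1, h2]

namespace FormBasis

variable (hX : ∀ x : X, (-1 : SL(2, ℤ)) • x = x)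

theorem trace_rho {cusp : Bool} (B : FormBasis X cusp X) :
    ∑ i, rotFactor ^ (-B.wt i) =
      (Nat.card {x : X // (ModularGroup.S * ModularGroup.T) • x = x} : ℂ) :=
  sum_eigenvalues _ B.indep fun i ↦ (B.isForm i).rotOp_rhoValue

include hX in
theorem trace_I {cusp : Bool} (B : FormBasis X cusp X) :
    ∑ i, Complex.I ^ (-B.wt i) = (Nat.card {x : X // ModularGroup.S • x = x} : ℂ) := by
  refine sum_eigenvalues _ (B.linearIndependent_value hX UpperHalfPlane.I) fun i ↦ funext fun x ↦ ?_
  have := (B.isForm i).apply_smul ModularGroup.S x UpperHalfPlane.I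
  rw [Genus.S_smul_I, show denom ModularGroup.S (UpperHalfPlane.I : ℂ) = Complex.I from
    ModularGroup.denom_S _] at this
  show B.form i (ModularGroup.S⁻¹ • x) UpperHalfPlane.I = _
  rw [Pi.smul_apply, smul_eq_mul, this, mul_comm (Complex.I ^ _), mul_assoc,
    ← zpow_add₀ Complex.I_ne_zero, add_neg_cancel, zpow_zero, mul_one]

variable (BM : FormBasis X false X) (BS : FormBasis X true X)

lemma sum_wt_add (hX : ∀ x : X, (-1 : SL(2, ℤ)) • x = x) :
    ∑ i, BS.wt i + ∑ i, BM.wt i = 12 * Fintype.card X := by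
  rw [BS.sum_wt hX, BM.sum_wt hX, ← mul_add, ← Nat.cast_add, cuspDegree, cuspDegree,
    ← Finset.sum_add_distrib]
  rw [Finset.sum_congr rfl (g := fun o : CuspSet X ↦ 2 * cuspWidth (cuspRep o)) fun o _ ↦ by
      have := cuspWidth_pos (cuspRep o)
      simp only [offset, cond_true, cond_false]; omega,
    ← Finset.mul_sum]
  have : ∑ o : CuspSet X, cuspWidth (cuspRep o) = Fintype.card X := by
    rw [← Fintype.card_congr (cuspEquiv (X := X)), Fintype.card_sigma]; simp
  rw [this]
  push_cast; ring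

include hX in
theorem exists_duality : ∃ σ : Equiv.Perm X, ∀ i, BS.wt (σ i) + BM.wt i = 12 := by
  classical
  set P : X → X → ℍ → ℂ := fun i j ↦ ∑ x, BM.form j x * BS.form i x with hP
  have hlev : ∀ i j, IsLevelOne (BM.wt j + BS.wt i) (P i j) := fun i j ↦
    ((BM.isForm j).mul (BS.isForm i)).sum_levelOne
  have hzero : ∀ i j, IsZeroAtImInfty (P i j) := fun i j ↦
    Finset.sum_induction _ (Growth true) (fun _ _ ↦ Growth.add) (Growth.zero _)
      fun x _ ↦ ((BM.isForm j).mul (BS.isForm i)).growth x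
  set τ₀ := UpperHalfPlane.I
  have hdet : (Matrix.of fun i j ↦ P i j τ₀).det ≠ 0 := by
    have e : (Matrix.of fun i j ↦ P i j τ₀)
        = (BS.valueMatrix τ₀).transpose * BM.valueMatrix τ₀ := by
      ext i j
      simp only [Matrix.of_apply, hP, Finset.sum_apply, Pi.mul_apply, Matrix.mul_apply,
        Matrix.transpose_apply, valueMatrix]
      exact Finset.sum_congr rfl fun x _ ↦ mul_comm _ _
    rw [e, Matrix.det_mul, Matrix.det_transpose]
    refine mul_ne_zero ?_ ?_
    · have := BS.valueDet_ne_zero hX τ₀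
      simpa [valueDet] using this
    · have := BM.valueDet_ne_zero hX τ₀
      simpa [valueDet] using this
  rw [Matrix.det_apply] at hdet
  obtain ⟨σ, -, hσ⟩ := Finset.exists_ne_zero_of_sum_ne_zero hdet
  have hne : ∀ i, P (σ i) i τ₀ ≠ 0 := fun i hi ↦ hσ (by
    rw [Finset.prod_eq_zero (Finset.mem_univ i) (by simpa using hi), smul_zero])
  have hge : ∀ i, 12 ≤ BS.wt (σ i) + BM.wt i := fun i ↦ by
    by_contra hlt
    obtain ⟨g, hg, he⟩ := (hlev (σ i) i).exists_eq_discriminant_mul (hzero (σ i) i)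
    rw [hg.eq_zero_of_neg (by omega), mul_zero] at he
    exact hne i (congrFun he τ₀)
  refine ⟨σ, fun i ↦ ?_⟩
  have hsum : ∑ j, (BS.wt (σ j) + BM.wt j - 12) = 0 := by
    rw [Finset.sum_sub_distrib, Finset.sum_add_distrib, Equiv.sum_comp σ BS.wt,
      sum_wt_add BM BS hX]
    simp; ring
  have := (Finset.sum_eq_zero_iff_of_nonneg fun j _ ↦ by have := hge j; omega).mp hsum i
    (Finset.mem_univ i)
  omega

theorem card_wt_zero [Nonempty X] [MulAction.IsPretransitive SL(2, ℤ) X] :
    Fintype.card {i : X // BM.wt i = 0} = 1 := by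
  classical
  have hconst : ∀ i, BM.wt i = 0 → ∀ x y : X, ∀ τ,
      BM.form i x τ = BM.form i y UpperHalfPlane.I := by
    intro i hi x y τ
    have hF : IsVForm false 0 (BM.form i) := hi ▸ BM.isForm i
    obtain ⟨g, rfl⟩ := MulAction.exists_smul_eq SL(2, ℤ) x y
    have h1 := hF.apply_smul g (g • x) UpperHalfPlane.I
    rw [inv_smul_smul, zpow_zero, mul_one, hF.eq_const] at h1
    rw [hF.eq_const x τ, h1]
  refine le_antisymm (Fintype.card_le_one_iff.mpr fun i j ↦ ?_) ?_
  · by_contra hij
    have hij' : (i : X) ≠ j := fun h ↦ hij (Subtype.ext h)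
    obtain ⟨x₀⟩ := ‹Nonempty X›
    set a := BM.form i x₀ UpperHalfPlane.I
    set b := BM.form j x₀ UpperHalfPlane.I
    have h := BM.rho_value_eq_zero
      (c := fun k ↦ if k = i then b else if k = j then -a else 0) fun x ↦ by
        rw [Finset.sum_eq_add (i : X) (j : X) hij' (fun k _ hk ↦ by simp [hk.1, hk.2])
          (by simp) (by simp)]
        simp only [if_true, if_neg hij'.symm]
        rw [hconst i i.2 x x₀, hconst j j.2 x x₀]
        ring
    have hb : b = 0 := by simpa using congrFun h (i : X)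
    exact BM.form_ne_zero j (funext fun x ↦ funext fun τ ↦ by
      rw [hconst j j.2 x x₀ τ]; exact hb)
  · refine Fintype.card_pos_iff.mpr ?_
    by_contra hempty
    rw [not_nonempty_iff, isEmpty_subtype] at hempty
    have h1 : IsVForm false 0 (fun _ : X ↦ (1 : ℍ → ℂ)) :=
      ⟨fun _ ↦ mdifferentiable_const, fun g _ ↦ is_invariant_one g,
        fun _ ↦ Filter.const_boundedAtFilter atImInfty (1 : ℂ)⟩
    have h2 := BM.spans 0 _ h1
    rw [show {i | BM.wt i ≤ 0} = (∅ : Set X) from Set.eq_empty_of_forall_notMem fun i hi ↦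
      hempty i (le_antisymm hi (BM.nonneg i))] at h2
    simp only [Set.image_empty, Submodule.span_empty, Submodule.mem_bot] at h2
    simpa [rhoValue_apply] using congrFun h2 (Classical.arbitrary X)

lemma wt_pos (i : X) : 0 < BS.wt i := by
  refine lt_of_le_of_ne (BS.nonneg i) fun h ↦ BS.form_ne_zero i (funext fun x ↦ funext fun τ ↦ ?_)
  have hF : IsVForm true 0 (BS.form i) := h ▸ BS.isForm i
  refine tendsto_nhds_unique (tendsto_const_nhds.congr fun σ ↦ ?_) (hF.growth x : IsZeroAtImInfty _)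
  rw [hF.eq_const x τ, hF.eq_const x σ]

/-- The weight-two cusp forms are spanned by the basis forms of weight two. -/
theorem finrank_two (hX : ∀ x : X, (-1 : SL(2, ℤ)) • x = x) :
    Module.finrank ℂ (vSpace X true 2) = Fintype.card {i : X // BS.wt i = 2} := by
  classical
  set L : ({i : X // BS.wt i = 2} → ℂ) →ₗ[ℂ] vSpace X true 2 :=
    Fintype.linearCombination ℂ fun i ↦ (⟨BS.form i, by
      have := BS.isForm i
      rw [i.2] at this
      exact this⟩ : vSpace X true 2) with hL
  have hLval : ∀ c x τ, (L c : X → ℍ → ℂ) x τ = ∑ i, c i * BS.form i x τ := fun c x τ ↦ by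
    simp [hL, Fintype.linearCombination_apply, Finset.sum_apply]
  have hinj : Function.Injective L := by
    rw [← LinearMap.ker_eq_bot, LinearMap.ker_eq_bot']
    intro c hc
    have h := BS.rho_value_eq_zero
      (c := fun j ↦ if h : BS.wt j = 2 then c ⟨j, h⟩ else 0) fun x ↦ by
        refine (Eq.trans ?_ (hLval c x UpperHalfPlane.ρ).symm).trans (by rw [hc]; rfl)
        rw [← Fintype.sum_subtype_add_sum_subtype (fun j ↦ BS.wt j = 2),
          add_eq_left.mpr (Finset.sum_eq_zero fun j _ ↦ by rw [dif_neg j.2, zero_mul])]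
        exact Finset.sum_congr rfl fun j _ ↦ by rw [dif_pos j.2]
    funext i
    simpa [i.2] using congrFun h (i : X)
  have hsurj : Function.Surjective L := by
    rintro ⟨F, hF⟩
    obtain ⟨Q, hQ, hFQ⟩ := BS.exists_repr hX (hF : IsVForm true 2 F)
    refine ⟨fun i ↦ Q i UpperHalfPlane.I, Subtype.ext (funext fun x ↦ funext fun τ ↦ ?_)⟩
    show (L _ : X → ℍ → ℂ) x τ = F x τ
    rw [hLval, hFQ x, Finset.sum_apply]
    simp only [Pi.mul_apply]
    rw [← Fintype.sum_subtype_add_sum_subtype (fun j ↦ BS.wt j = 2) (fun j ↦ Q j τ * BS.form j x τ),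
      add_eq_left.mpr (Finset.sum_eq_zero fun j _ ↦ ?_)]
    · refine Finset.sum_congr rfl fun j _ ↦ ?_
      have h0 : IsLevelOne 0 (Q j) := by
        have := hQ j
        rwa [j.2, sub_self] at this
      obtain ⟨c, hc⟩ := ModularFormClass.levelOne_weight_zero_const h0.toModularForm
      have hc' : ∀ σ, Q j σ = c := fun σ ↦ congrFun hc σ
      rw [hc', hc']
    · have h2 := (BS.even hX j).two_dvd
      have h3 := BS.wt_pos j
      have h4 : BS.wt j ≠ 2 := j.2
      rw [(hQ j).eq_zero_of_neg (by omega), Pi.zero_apply, zero_mul]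
  rw [← LinearEquiv.finrank_eq (LinearEquiv.ofBijective L ⟨hinj, hsurj⟩),
    Module.finrank_fintype_fun_eq_card]

/-- The genus formula for the dimension of weight two cusp forms. -/
theorem finrank_two_eq [Nonempty X] [MulAction.IsPretransitive SL(2, ℤ) X]
    (hX : ∀ x : X, (-1 : SL(2, ℤ)) • x = x) :
    (12 : ℤ) * Module.finrank ℂ (vSpace X true 2) = 12 + Fintype.card X
      - 3 * Nat.card {x : X // ModularGroup.S • x = x}
      - 4 * Nat.card {x : X // (ModularGroup.S * ModularGroup.T) • x = x}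
      - 6 * Fintype.card (CuspSet X) := by
  classical
  obtain ⟨BM⟩ := exists_formBasis_equiv hX false
  obtain ⟨BS⟩ := exists_formBasis_equiv hX true
  obtain ⟨σ, hσ⟩ := exists_duality hX BM BS
  set u : ℤ → ℕ := fun b ↦ Fintype.card {i : X // BS.wt i = b} with hu
  have hrange : ∀ i, BS.wt i ∈ ({2, 4, 6, 8, 10, 12} : Finset ℤ) := fun i ↦ by
    have h := hσ (σ.symm i)
    rw [Equiv.apply_symm_apply] at h
    have h1 := BM.nonneg (σ.symm i)
    have h2 := BS.wt_pos i
    have h3 := (BS.even hX i).two_dvd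
    simp only [Finset.mem_insert, Finset.mem_singleton]
    omega
  have key : ∀ (f : ℤ → ℂ), ∑ i, f (BS.wt i) = u 2 * f 2 + u 4 * f 4 + u 6 * f 6 + u 8 * f 8 +
      u 10 * f 10 + u 12 * f 12 := by
    intro f
    rw [← Finset.sum_fiberwise_of_maps_to (t := ({2, 4, 6, 8, 10, 12} : Finset ℤ))
      (g := fun i ↦ BS.wt i) (fun i _ ↦ hrange i) fun i ↦ f (BS.wt i)]
    have hb : ∀ b, ∑ i ∈ Finset.univ.filter (fun i ↦ BS.wt i = b), f (BS.wt i) = u b * f b := by
      intro b
      rw [Finset.sum_congr rfl (g := fun _ ↦ f b) fun i hi ↦ by rw [(Finset.mem_filter.mp hi).2],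
        Finset.sum_const, nsmul_eq_mul]
      simp only [hu, Fintype.card_subtype]
    simp only [hb]
    rw [Finset.sum_insert (by decide), Finset.sum_insert (by decide), Finset.sum_insert (by decide),
      Finset.sum_insert (by decide), Finset.sum_insert (by decide), Finset.sum_singleton]
    ring
  have htot := key 1
  simp only [Pi.one_apply, mul_one, Finset.sum_const, Finset.card_univ, nsmul_eq_mul] at htot
  have h12 : u 12 = 1 := by
    rw [hu, ← card_wt_zero BM]
    exact Fintype.card_congr ((σ.subtypeEquiv fun i ↦ by have := hσ i; omega).symm)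
  have hW := key (fun b ↦ (b : ℂ))
  rw [← Int.cast_sum, BS.sum_wt hX] at hW
  have hdeg : cuspDegree X true = Fintype.card X + Fintype.card (CuspSet X) := by
    rw [cuspDegree, Finset.sum_congr rfl (g := fun o : CuspSet X ↦ cuspWidth (cuspRep o) + 1)
      fun o _ ↦ by
        have := cuspWidth_pos (cuspRep o)
        simp only [offset, cond_true]; omega,
      Finset.sum_add_distrib, Finset.sum_const, Finset.card_univ, smul_eq_mul, mul_one,
      ← Fintype.card_congr (cuspEquiv (X := X)), Fintype.card_sigma]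
    simp
  rw [hdeg] at hW
  have hI := BS.trace_I hX
  rw [key (fun b ↦ Complex.I ^ (-b))] at hI
  have hI4 : ∀ m : ℤ, Complex.I ^ (4 * m) = 1 := fun m ↦ by
    rw [zpow_mul, show Complex.I ^ (4 : ℤ) = 1 by simp [zpow_ofNat], one_zpow]
  have hI2 : ∀ m : ℤ, Complex.I ^ (4 * m + 2) = -1 := fun m ↦ by
    rw [zpow_add₀ Complex.I_ne_zero, hI4, one_mul]; simp [zpow_ofNat]
  rw [show (-2 : ℤ) = 4 * (-1) + 2 by norm_num, show (-6 : ℤ) = 4 * (-2) + 2 by norm_num,
    show (-10 : ℤ) = 4 * (-3) + 2 by norm_num, show (-4 : ℤ) = 4 * (-1) by norm_num,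
    show (-8 : ℤ) = 4 * (-2) by norm_num, show (-12 : ℤ) = 4 * (-3) by norm_num] at hI
  simp only [hI4, hI2] at hI
  have hR := BS.trace_rho
  rw [key (fun b ↦ rotFactor ^ (-b))] at hR
  have h6 : ∀ m : ℤ, rotFactor ^ (6 * m) = 1 := fun m ↦ by
    rw [zpow_mul, zpow_ofNat, rotFactor_six, one_zpow]
  have h62 : ∀ m : ℤ, rotFactor ^ (6 * m + 2) = (UpperHalfPlane.ρ : ℂ) := fun m ↦ by
    rw [zpow_add₀ rotFactor_ne_zero, h6, one_mul, zpow_ofNat, rotFactor_sq]
  have h64 : ∀ m : ℤ, rotFactor ^ (6 * m + 4) = -(UpperHalfPlane.ρ : ℂ) - 1 := fun m ↦ by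
    rw [zpow_add₀ rotFactor_ne_zero, h6, one_mul, zpow_ofNat, pow_mul rotFactor 2 2, rotFactor_sq,
      UpperHalfPlane.ρ_sq]
  rw [show (-2 : ℤ) = 6 * (-1) + 4 by norm_num, show (-4 : ℤ) = 6 * (-1) + 2 by norm_num,
    show (-6 : ℤ) = 6 * (-1) by norm_num, show (-8 : ℤ) = 6 * (-2) + 4 by norm_num,
    show (-10 : ℤ) = 6 * (-2) + 2 by norm_num, show (-12 : ℤ) = 6 * (-2) by norm_num] at hR
  simp only [h6, h62, h64] at hR
  have hre := congrArg Complex.re hR
  have him := congrArg Complex.im hR
  simp [UpperHalfPlane.ρ] at hre him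
  rw [finrank_two BS hX]
  have e2 : Fintype.card {i : X // BS.wt i = 2} = u 2 := rfl
  rw [e2]
  have htot' := congrArg Complex.re htot
  have hW' := congrArg Complex.re hW
  have hI' := congrArg Complex.re hI
  simp [h12] at htot' hW' hI'
  have hs : (0 : ℝ) < Real.sqrt 3 / 2 := by positivity
  have him' : (u 4 : ℝ) + u 10 = u 2 + u 8 := by
    refine mul_left_cancel₀ hs.ne' ?_
    linear_combination him
  have goalR : (12 : ℝ) * u 2 = 12 + Fintype.card X
      - 3 * Nat.card {x : X // ModularGroup.S • x = x}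
      - 4 * Nat.card {x : X // (ModularGroup.S * ModularGroup.T) • x = x}
      - 6 * Fintype.card (CuspSet X) := by
    simp only [Nat.card_eq_fintype_card] at hre hI' ⊢
    have h12' : (u 12 : ℝ) = 1 := by exact_mod_cast h12
    linarith
  exact_mod_cast goalR

end FormBasis

end Fermat.Agent.Poincare
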