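import Fermat.Agent.Poincare.Separation
import Fermat.Agent.Poincare.CuspCoord

/-!
# The sum of the weights of a basis

`sum_wt` computes the sum of the weights of a basis of vector valued forms from the order of the
determinant of its value matrix at infinity.
-/

set_option autoImplicit false

noncomputable section

open UpperHalfPlane hiding I
open Filter Topology Complex ModularForm Function
open scoped MatrixGroups Manifold Real

namespace Fermat.Agent.Poincare

variable {X : Type} [MulAction SL(2, ℤ) X] [Fintype X] {cusp : Bool}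

namespace FormBasis

/-- The value matrix. -/
def valueMatrix (B : FormBasis X cusp X) (τ : ℍ) : Matrix X X ℂ :=
  Matrix.of fun x i ↦ B.form i x τ

/-- Its determinant. -/
def valueDet (B : FormBasis X cusp X) (τ : ℍ) : ℂ :=
  open scoped Classical in (B.valueMatrix τ).det

lemma valueDet_ne_zero (B : FormBasis X cusp X) (hX : ∀ x : X, (-1 : SL(2, ℤ)) • x = x) (τ : ℍ) :
    B.valueDet τ ≠ 0 := by
  classical
  have h : LinearIndependent ℂ (B.valueMatrix τ).col := B.linearIndependent_value hX τ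
  rw [Matrix.linearIndependent_cols_iff_isUnit, Matrix.isUnit_iff_isUnit_det] at h
  simpa [valueDet] using h.ne_zero

lemma mdifferentiable_valueDet (B : FormBasis X cusp X) : MDiff B.valueDet := by
  classical
  have hprod : ∀ (s : Finset X) (f : X → ℍ → ℂ), (∀ i, MDiff (f i)) →
      MDiff fun τ ↦ ∏ i ∈ s, f i τ := by
    intro s f hf
    induction s using Finset.induction_on with
    | empty => simpa using mdifferentiable_const (c := (1 : ℂ))
    | insert a s ha ih => simp only [Finset.prod_insert ha]; exact (hf a).mul ih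
  have : B.valueDet = fun τ ↦ ∑ σ : Equiv.Perm X,
      ((Equiv.Perm.sign σ : ℤ) : ℂ) * ∏ i, B.form i (σ i) τ := by
    funext τ
    simp [valueDet, valueMatrix, Matrix.det_apply', Matrix.of_apply]
  rw [this]
  exact mdifferentiable_finset_sum _ fun σ ↦
    mdifferentiable_const.mul (hprod _ _ fun i ↦ (B.isForm i).holo _)

lemma valueDet_smul (B : FormBasis X cusp X) (g : SL(2, ℤ)) (τ : ℍ) :
    B.valueDet (g • τ) ^ 2 = B.valueDet τ ^ 2 * denom g (τ : ℂ) ^ (2 * ∑ i, B.wt i) := by
  classical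
  have e : B.valueMatrix (g • τ) = (B.valueMatrix τ).submatrix (MulAction.toPerm g⁻¹) id *
      Matrix.diagonal fun i ↦ denom g (τ : ℂ) ^ B.wt i := by
    ext x i
    rw [Matrix.mul_diagonal]
    exact (B.isForm i).apply_smul g x τ
  have hs : ((Equiv.Perm.sign (MulAction.toPerm g⁻¹ : Equiv.Perm X) : ℤ) : ℂ) ^ 2 = 1 := by
    rcases Int.units_eq_one_or (Equiv.Perm.sign (MulAction.toPerm g⁻¹ : Equiv.Perm X)) with h | h <;>
      simp [h]
  simp only [valueDet]
  rw [e, Matrix.det_mul, Matrix.det_permute, Matrix.det_diagonal, mul_pow, mul_pow, hs, one_mul]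
  congr 1
  have hz : ∀ (s : Finset X), ∏ i ∈ s, denom g (τ : ℂ) ^ B.wt i
      = denom g (τ : ℂ) ^ ∑ i ∈ s, B.wt i := by
    intro s
    induction s using Finset.induction_on with
    | empty => simp
    | insert a s ha ih =>
      rw [Finset.prod_insert ha, Finset.sum_insert ha, ih, zpow_add₀ (denom_ne_zero _ τ)]
  rw [hz, mul_comm (2 : ℤ), zpow_mul]
  rfl

/-- The constant part of the transition matrix to cusp coordinates. -/
def coordMatrix (cusp : Bool) (x y : X) : ℂ :=
  open scoped Classical in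
  (fun o : CuspSet X ↦ ((cuspWidth (cuspRep o) : ℕ) : ℂ)⁻¹ *
    ∑ j ∈ Finset.range (cuspWidth (cuspRep o)),
      if (shift : X → X)^[j] (cuspRep o) = y then expU (-cuspExp cusp x) j else 0)
    (cuspEquiv.symm x).1

lemma cuspCoord_eq_sum (F : X → ℍ → ℂ) (x : X) (τ : ℍ) :
    cuspCoord cusp F x τ
      = expU (-cuspExp cusp x) (τ : ℂ) * ∑ y, coordMatrix cusp x y * F y τ := by
  classical
  simp only [cuspCoord, coordMatrix, Finset.mul_sum, Finset.sum_mul]
  rw [Finset.sum_comm]
  refine Finset.sum_congr rfl fun j _ ↦ ?_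
  simp only [ite_mul, mul_ite, zero_mul, mul_zero, Finset.sum_ite_eq, Finset.mem_univ, if_true,
    expU_add_right]
  ring

/-- The limit of the cusp coordinates of a basis form. -/
def cuspLimit (B : FormBasis X cusp X) : Matrix X X ℂ :=
  Matrix.of fun x i ↦ Classical.choose (exists_tendsto_cuspCoord (B.isForm i) x)

lemma tendsto_cuspLimit (B : FormBasis X cusp X) (x i : X) :
    Tendsto (cuspCoord cusp (B.form i) x) atImInfty (𝓝 (B.cuspLimit x i)) :=
  Classical.choose_spec (exists_tendsto_cuspCoord (B.isForm i) x)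

lemma cuspLimit_det_ne_zero [DecidableEq X] (B : FormBasis X cusp X)
    (hX : ∀ x : X, (-1 : SL(2, ℤ)) • x = x) : (B.cuspLimit).det ≠ 0 := by
  intro hdet
  obtain ⟨c, hc0, hc⟩ := Matrix.exists_mulVec_eq_zero_iff.mpr hdet
  apply hc0
  obtain ⟨N, hN⟩ : ∃ N : ℕ, ∀ i, B.wt i ≤ 2 * N := by
    obtain ⟨S, hS⟩ : ∃ S : ℕ, S = ∑ i, (B.wt i).toNat := ⟨_, rfl⟩
    refine ⟨S, fun i ↦ ?_⟩
    have := Finset.single_le_sum (f := fun i ↦ (B.wt i).toNat) (fun _ _ ↦ Nat.zero_le _)
      (Finset.mem_univ i)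
    rw [← hS] at this
    omega
  have hex : ∀ i, ∃ a b : ℕ, ((4 * a + 6 * b : ℕ) : ℤ) = 2 * (N + 2 : ℕ) - B.wt i := fun i ↦ by
    obtain ⟨d, hd⟩ := (B.even hX i).two_dvd
    obtain ⟨a, b, hab⟩ := exists_exponents (n := (((N + 2 : ℕ) : ℤ) - d).toNat)
      (by have := hN i; omega)
    exact ⟨a, b, by have := hN i; omega⟩
  choose a b hab using hex
  set K : ℤ := 2 * (N + 2 : ℕ) with hK
  set q : X → ℍ → ℂ := fun i ↦ c i • ((⇑E₄ : ℍ → ℂ) ^ a i * (⇑E₆ : ℍ → ℂ) ^ b i) with hq
  have hqw : ∀ i, IsLevelOne (K - B.wt i) (q i) := fun i ↦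
    (hab i ▸ isLevelOne_monomial (a i) (b i)).smul _
  have hqt : ∀ i, Tendsto (q i) atImInfty (𝓝 (c i)) := fun i ↦ by
    have := (tendsto_monomial (a i) (b i)).const_smul (c i)
    simp only [smul_eq_mul, mul_one] at this
    exact this
  set G : X → ℍ → ℂ := ∑ i, fun x ↦ q i * B.form i x with hG
  have hGf : IsVForm cusp K G := (vSpace X cusp K).sum_mem fun i _ ↦ by
    simpa [mem_vSpace] using IsVForm.levelOne_mul (hqw i) (B.isForm i)
  have hG0 : ∀ x, Tendsto (cuspCoord cusp G x) atImInfty (𝓝 0) := fun x ↦ by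
    rw [hG, cuspCoord_sum]
    simp only [cuspCoord_mul]
    have h := tendsto_finsetSum Finset.univ fun i (_ : i ∈ Finset.univ) ↦
      (hqt i).mul (B.tendsto_cuspLimit x i)
    have h0 : ∑ i, c i * B.cuspLimit x i = 0 := by
      have := congrFun hc x
      simp only [Matrix.mulVec, dotProduct, Pi.zero_apply] at this
      rw [← this]
      exact Finset.sum_congr rfl fun i _ ↦ mul_comm _ _
    rw [h0] at h
    refine h.congr fun τ ↦ ?_
    simp [Finset.sum_apply]
  obtain ⟨H, hH, hGH⟩ := exists_eq_discriminant_mul hGf hG0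
  obtain ⟨R, hR, hHR⟩ := B.exists_repr hX hH
  have hw : ∀ i, IsLevelOne (K - B.wt i) (q i - ModularForm.discriminant * R i) := fun i ↦ by
    refine (hqw i).sub ?_
    have := isLevelOne_discriminant.mul (hR i)
    rwa [show (12 : ℤ) + (K - 12 - B.wt i) = K - B.wt i by ring] at this
  have hzero := B.repr_eq_zero K _ hw fun x ↦ by
    have e1 := hGH x
    rw [hHR x, hG, Finset.sum_apply, Finset.mul_sum] at e1
    simp only [sub_mul, Finset.sum_sub_distrib, e1, sub_eq_zero]
    exact Finset.sum_congr rfl fun i _ ↦ by ring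
  funext i
  have he : q i = ModularForm.discriminant * R i := sub_eq_zero.mp (congrFun hzero i)
  have h0 : Tendsto (q i) atImInfty (𝓝 0) := by
    rw [he, mul_comm]
    exact Growth.mul_bounded (cusp := true) (hR i).bdd discriminant_isZeroAtImInfty
  exact tendsto_nhds_unique (hqt i) h0

/-- Twice the order of the determinant at the cusps. -/
def cuspDegree (X : Type) [MulAction SL(2, ℤ) X] [Fintype X] (cusp : Bool) : ℕ :=
  ∑ o : CuspSet X, (cuspWidth (cuspRep o) - 1 + 2 * offset cusp)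

lemma two_mul_sum_cuspExp :
    2 * ∑ x : X, cuspExp cusp x = (cuspDegree X cusp : ℝ) := by
  rw [← cuspEquiv.sum_comp, Fintype.sum_sigma, cuspDegree, Nat.cast_sum, Finset.mul_sum]
  refine Finset.sum_congr rfl fun o _ ↦ ?_
  simp only [cuspExp_apply, Finset.mul_sum]
  have hpos := cuspWidth_pos (cuspRep o)
  set h := cuspWidth (cuspRep o)
  rw [Fin.sum_univ_eq_sum_range (fun t : ℕ ↦ 2 * (((offset cusp + t : ℕ) : ℝ) / (h : ℕ))) h]
  have hsum : (∑ t ∈ Finset.range h, (t : ℝ)) * 2 = (h : ℝ) * (h - 1 : ℕ) := by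
    have := congrArg (fun n : ℕ ↦ (n : ℝ)) (Finset.sum_range_id_mul_two h)
    push_cast at this
    exact this
  simp only [Nat.cast_add, mul_div_assoc', ← Finset.sum_div, ← Finset.mul_sum,
    Finset.sum_add_distrib, Finset.sum_const, Finset.card_range, nsmul_eq_mul, Nat.cast_mul,
    Nat.cast_ofNat]
  rw [div_eq_iff (by exact_mod_cast hpos.ne')]
  linear_combination hsum

theorem sum_wt (B : FormBasis X cusp X) (hX : ∀ x : X, (-1 : SL(2, ℤ)) • x = x) :
    ∑ i, B.wt i = 6 * (cuspDegree X cusp : ℤ) := by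
  classical
  set m := cuspDegree X cusp with hm
  set W := ∑ i, B.wt i with hW
  set C := (Matrix.of (coordMatrix (X := X) cusp)).det with hC
  set a := (B.cuspLimit).det with ha
  have hlim : Tendsto (fun τ : ℍ ↦ (∏ x : X, expU (-cuspExp cusp x) (τ : ℂ)) * C * B.valueDet τ)
      atImInfty (𝓝 a) := by
    have hmat : Tendsto (fun τ : ℍ ↦ Matrix.diagonal (fun x ↦ expU (-cuspExp cusp x) (τ : ℂ)) *
        Matrix.of (coordMatrix (X := X) cusp) * B.valueMatrix τ) atImInfty (𝓝 B.cuspLimit) := by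
      refine tendsto_pi_nhds.mpr fun x ↦ tendsto_pi_nhds.mpr fun i ↦ ?_
      refine (B.tendsto_cuspLimit x i).congr fun τ ↦ ?_
      rw [Matrix.mul_assoc, Matrix.diagonal_mul, cuspCoord_eq_sum]
      rfl
    refine ((continuous_id.matrix_det.tendsto _).comp hmat).congr fun τ ↦ ?_
    simp [valueDet, Matrix.det_mul, Matrix.det_diagonal, hC]
  have ha0 : a ≠ 0 := B.cuspLimit_det_ne_zero hX
  set H : ℍ → ℂ := fun τ ↦ B.valueDet τ ^ 2 / ModularForm.discriminant τ ^ m with hH
  have hHne : ∀ τ, H τ ≠ 0 := fun τ ↦ div_ne_zero (pow_ne_zero _ (B.valueDet_ne_zero hX τ))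
    (pow_ne_zero _ (discriminant_ne_zero τ))
  have hHd : MDiff H :=
    (B.mdifferentiable_valueDet.pow 2).div (isLevelOne_discriminant.holo.pow m)
      fun τ ↦ pow_ne_zero _ (discriminant_ne_zero τ)
  have hHs : ∀ g : SL(2, ℤ), H ∣[2 * W - 12 * (m : ℤ)] g = H := by
    intro g
    ext τ
    have hd : denom g (τ : ℂ) ≠ 0 := denom_ne_zero _ τ
    rw [SL_slash_apply]
    simp only [hH]
    rw [valueDet_smul, isLevelOne_discriminant.apply_smul, mul_pow, ← hW, ← zpow_natCast
      (denom g (τ : ℂ) ^ (12 : ℤ)), ← zpow_mul, neg_sub, zpow_sub₀ hd]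
    have h1 := zpow_ne_zero (2 * W) hd
    have h2 := zpow_ne_zero (12 * (m : ℤ)) hd
    have h3 := discriminant_ne_zero τ
    field_simp
  have hC0 : C ≠ 0 := fun h ↦ ha0 <| tendsto_nhds_unique hlim (by simp [h])
  have hlim2 : Tendsto H atImInfty (𝓝 ((a / C) ^ 2)) := by
    have h1 := (((hlim.div_const C).pow 2)).div
      (tendsto_discriminant_div_q.pow m) (by simp)
    rw [one_pow, div_one] at h1
    refine h1.congr fun τ ↦ ?_
    have he : (∏ x : X, expU (-cuspExp cusp x) (τ : ℂ)) ^ 2 = (expU 1 (τ : ℂ) ^ m)⁻¹ := by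
      simp only [expU, ← Complex.exp_sum, ← Complex.exp_nat_mul, ← Complex.exp_neg]
      congr 1
      rw [← Finset.sum_mul, ← Finset.mul_sum]
      have := congrArg (fun r : ℝ ↦ (r : ℂ)) (two_mul_sum_cuspExp (X := X) (cusp := cusp))
      push_cast at this ⊢
      rw [Finset.sum_neg_distrib]
      linear_combination (-(2 * (π : ℂ) * Complex.I * (τ : ℂ))) * this
    have hq := pow_ne_zero m (expU_ne_zero 1 (τ : ℂ))
    have := pow_ne_zero m (discriminant_ne_zero τ)
    simp only [hH, Pi.div_apply]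
    rw [div_pow, mul_pow, mul_pow, he, div_pow]
    field_simp
  have hac : (a / C) ^ 2 ≠ 0 := pow_ne_zero _ (div_ne_zero ha0 hC0)
  have hHl : IsLevelOne (2 * W - 12 * m) H :=
    ⟨hHd, hHs, (hlim2.isBigO_one ℝ)⟩
  have hIl : IsLevelOne (-(2 * W - 12 * m)) H⁻¹ :=
    ⟨hHd.inv hHne, fun g ↦ by
      have := div_slash_SL2 0 (2 * W - 12 * m) g (1 : ℍ → ℂ) H
      rwa [is_invariant_one, hHs, zero_sub, one_div] at this,
      ((hlim2.inv₀ hac).isBigO_one ℝ)⟩
  have h1 : ¬ 2 * W - 12 * (m : ℤ) < 0 := fun h ↦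
    hHne UpperHalfPlane.I (congrFun (hHl.eq_zero_of_neg h) _)
  have h2 : ¬ -(2 * W - 12 * (m : ℤ)) < 0 := fun h ↦
    inv_ne_zero (hHne UpperHalfPlane.I) (congrFun (hIl.eq_zero_of_neg h) _)
  omega

end FormBasis

end Fermat.Agent.Poincare
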